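import Mathlib

/-!
# S48 (Deligne–Serre), brick C: Eisenstein sums over congruence sets

For a set `P` of residue vectors mod `N` we consider the absolutely convergent lattice sum
`eis N P k z = ∑ (c z + d)⁻ᵏ` over all integer pairs `(c, d)` (no coprimality condition) whose
reduction mod `N` lies in `P` (`3 ≤ k`).

* `eis_slash`   : `eis N P k ∣[k] γ = eis N (act N γ P) k` for `γ ∈ SL(2, ℤ)`;
* `eisSIF`, `eisMF` : the modular form of level `Γ(N)`;
* `isBoundedAtImInfty_eis_slash` : boundedness at `i∞` of every `SL(2, ℤ)`-translate.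

This is Mathlib's development of `eisensteinSeries` (sum over coprime pairs in one residue class)
with the index set `gammaSet N 1 a` replaced by a union of residue classes.
-/

set_option autoImplicit false

noncomputable section

namespace Fermat.Agent.S48.Eis3

open ModularForm UpperHalfPlane Matrix CongruenceSubgroup Set EisensteinSeries Filter
open scoped MatrixGroups Manifold Topology

variable (N : ℕ)

/-- Integer pairs whose reduction mod `N` lies in `P`. -/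
def congSet (P : Set (Fin 2 → ZMod N)) : Set (Fin 2 → ℤ) :=
  {v | (((↑) : ℤ → ZMod N) ∘ v) ∈ P}

/-- The Eisenstein sum over a congruence set. -/
def eis (P : Set (Fin 2 → ZMod N)) (k : ℤ) (z : ℍ) : ℂ := ∑' v : congSet N P, eisSummand k v z

/-- The right action of `SL(2, ℤ)` on sets of residue vectors. -/
def act (γ : SL(2, ℤ)) (P : Set (Fin 2 → ZMod N)) : Set (Fin 2 → ZMod N) :=
  {b | (b ᵥ* (γ⁻¹ : SL(2, ℤ)) : Fin 2 → ZMod N) ∈ P}

theorem mem_act_iff (γ : SL(2, ℤ)) (P : Set (Fin 2 → ZMod N)) (b : Fin 2 → ZMod N) :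
    b ∈ act N γ P ↔ (b ᵥ* (γ⁻¹ : SL(2, ℤ)) : Fin 2 → ZMod N) ∈ P := Iff.rfl

theorem cast_vecMul (v : Fin 2 → ℤ) (γ : SL(2, ℤ)) :
    (((↑) : ℤ → ZMod N) ∘ (v ᵥ* γ : Fin 2 → ℤ))
      = ((((↑) : ℤ → ZMod N) ∘ v) ᵥ* γ : Fin 2 → ZMod N) := by
  have := RingHom.map_vecMul (m := Fin 2) (n := Fin 2) (Int.castRingHom (ZMod N)) γ v
  funext i
  have h := this i
  simp only [eq_intCast, Int.coe_castRingHom] at h
  rw [Function.comp_apply, h]
  rfl

theorem vecMul_mul_inv (v : Fin 2 → ℤ) (γ : SL(2, ℤ)) :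
    ((v ᵥ* γ : Fin 2 → ℤ) ᵥ* (γ⁻¹ : SL(2, ℤ)) : Fin 2 → ℤ) = v := by
  simp_rw [vecMul_vecMul, ← Matrix.SpecialLinearGroup.coe_mul, mul_inv_cancel,
    Matrix.SpecialLinearGroup.coe_one, vecMul_one]

theorem vecMul_inv_mul (v : Fin 2 → ℤ) (γ : SL(2, ℤ)) :
    ((v ᵥ* (γ⁻¹ : SL(2, ℤ)) : Fin 2 → ℤ) ᵥ* γ : Fin 2 → ℤ) = v := by
  simp_rw [vecMul_vecMul, ← Matrix.SpecialLinearGroup.coe_mul, inv_mul_cancel,
    Matrix.SpecialLinearGroup.coe_one, vecMul_one]

theorem vecMul_mem_congSet_act_iff (P : Set (Fin 2 → ZMod N)) (γ : SL(2, ℤ)) (v : Fin 2 → ℤ) :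
    (v ᵥ* γ : Fin 2 → ℤ) ∈ congSet N (act N γ P) ↔ v ∈ congSet N P := by
  show (((((↑) : ℤ → ZMod N) ∘ (v ᵥ* γ : Fin 2 → ℤ)) ᵥ* (γ⁻¹ : SL(2, ℤ)) : Fin 2 → ZMod N)
    ∈ P) ↔ _
  rw [← cast_vecMul, vecMul_mul_inv]
  rfl

/-- Right multiplication by `γ`, as a permutation of `ℤ²`. -/
def vecEquiv (γ : SL(2, ℤ)) : (Fin 2 → ℤ) ≃ (Fin 2 → ℤ) where
  toFun v := v ᵥ* γ
  invFun v := v ᵥ* (γ⁻¹ : SL(2, ℤ))
  left_inv v := vecMul_mul_inv v γ
  right_inv v := vecMul_inv_mul v γ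

/-- The bijection between congruence sets given by right multiplication. -/
def congEquiv (P : Set (Fin 2 → ZMod N)) (γ : SL(2, ℤ)) :
    congSet N P ≃ congSet N (act N γ P) :=
  (vecEquiv γ).subtypeEquiv fun v => (vecMul_mem_congSet_act_iff N P γ v).symm

theorem congEquiv_apply (P : Set (Fin 2 → ZMod N)) (γ : SL(2, ℤ)) (v : congSet N P) :
    ((congEquiv N P γ v : congSet N (act N γ P)) : Fin 2 → ℤ) = (v : Fin 2 → ℤ) ᵥ* γ := rfl

/-- **The transformation law.** -/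
theorem eis_slash (P : Set (Fin 2 → ZMod N)) (k : ℤ) (γ : SL(2, ℤ)) :
    eis N P k ∣[k] γ = eis N (act N γ P) k := by
  ext1 z
  simp_rw [SL_slash_apply, _root_.zpow_neg,
    mul_inv_eq_iff_eq_mul₀ (zpow_ne_zero _ <| denom_ne_zero _ z),
    eis, eisSummand_SL2_apply, tsum_mul_left, mul_comm (_ ^ k)]
  congr 1
  exact (congEquiv N P γ).tsum_eq (fun v : congSet N (act N γ P) => eisSummand k v z)

theorem act_eq_self (P : Set (Fin 2 → ZMod N)) {γ : SL(2, ℤ)}
    (hγ : γ ∈ CongruenceSubgroup.Gamma N) : act N γ P = P := by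
  ext b
  rw [mem_act_iff]
  have h := Gamma_mem'.mp (inv_mem hγ)
  have h2 : (b ᵥ* (γ⁻¹ : SL(2, ℤ)) : Fin 2 → ZMod N) = b := by
    simp [h]
  rw [h2]

/-- The slash-invariant form of level `Γ(N)`. -/
def eisSIF (P : Set (Fin 2 → ZMod N)) (k : ℤ) : SlashInvariantForm (Gamma N) k where
  toFun := eis N P k
  slash_action_eq' A hA := by
    obtain ⟨A, (hA : A ∈ CongruenceSubgroup.Gamma N), rfl⟩ := hA
    have h : eis N P k ∣[k] A = eis N P k := by rw [eis_slash, act_eq_self N P hA]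
    simpa [Matrix.SpecialLinearGroup.mapGL, ← SL_slash] using h

theorem eisSIF_apply (P : Set (Fin 2 → ZMod N)) (k : ℤ) (z : ℍ) :
    eisSIF N P k z = eis N P k z := rfl

/-! ### Convergence, holomorphy -/

theorem eis_tendstoLocallyUniformly {k : ℤ} (hk : 3 ≤ k) (P : Set (Fin 2 → ZMod N)) :
    TendstoLocallyUniformly (fun (s : Finset (congSet N P)) ↦ (∑ x ∈ s, eisSummand k x ·))
      (eis N P k ·) Filter.atTop := by
  have hk' : (2 : ℝ) < k := by norm_cast
  have p_sum : Summable fun x : congSet N P ↦ ‖x.val‖ ^ (-k) :=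
    mod_cast (summable_one_div_norm_rpow hk').subtype (· ∈ congSet N P)
  simp only [tendstoLocallyUniformly_iff_forall_isCompact, eis]
  intro K hK
  obtain ⟨A, B, hB, HABK⟩ := subset_verticalStrip_of_isCompact hK
  refine (tendstoUniformlyOn_tsum (hu := p_sum.mul_left <| r ⟨⟨A, B⟩, hB⟩ ^ (-k : ℝ))
    (fun p z hz ↦ ?_)).mono HABK
  simpa only [eisSummand, one_div, ← _root_.zpow_neg, norm_zpow, ← Real.rpow_intCast,
    Int.cast_neg] using summand_bound_of_mem_verticalStrip (by positivity) p hB hz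

theorem eis_tendstoLocallyUniformlyOn {k : ℤ} (hk : 3 ≤ k) (P : Set (Fin 2 → ZMod N)) :
    TendstoLocallyUniformlyOn (fun (s : Finset (congSet N P)) ↦
      ((fun (z : ℍ) ↦ ∑ x ∈ s, eisSummand k x z) ∘ ofComplex)) ((eis N P k) ∘ ofComplex)
          Filter.atTop {z : ℂ | 0 < z.im} := by
  rw [← upperHalfPlaneSet, ← range_coe, ← image_univ]
  apply TendstoLocallyUniformlyOn.comp (s := ⊤) _ _ _ (OpenPartialHomeomorph.continuousOn_symm _)
  · simp only [Set.top_eq_univ, tendstoLocallyUniformlyOn_univ]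
    apply eis_tendstoLocallyUniformly N hk
  · simp only [Topology.IsOpenEmbedding.toOpenPartialHomeomorph_target, Set.top_eq_univ, mapsTo_range_iff,
    Set.mem_univ, forall_const]

theorem eis_mdifferentiable {k : ℤ} (hk : 3 ≤ k) (P : Set (Fin 2 → ZMod N)) :
    MDiff (eis N P k) := by
  intro τ
  suffices DifferentiableAt ℂ ((eis N P k) ∘ ofComplex) τ.1 by
    convert!
      MDifferentiableAt.comp τ (DifferentiableAt.mdifferentiableAt this) τ.mdifferentiable_coe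
    exact funext fun z ↦ (comp_ofComplex (eis N P k) z).symm
  refine DifferentiableOn.differentiableAt ?_ (isOpen_upperHalfPlaneSet.mem_nhds τ.2)
  exact (eis_tendstoLocallyUniformlyOn N hk P).differentiableOn
    (Eventually.of_forall fun s ↦ DifferentiableOn.fun_sum
    fun _ _ ↦ eisSummand_extension_differentiableOn _ _) isOpen_upperHalfPlaneSet

/-! ### Boundedness at the cusps -/

theorem norm_eis_le_tsum_norm (P : Set (Fin 2 → ZMod N)) (k : ℤ) (hk : 3 ≤ k) (z : ℍ) :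
    ‖eis N P k z‖ ≤ ∑' (x : Fin 2 → ℤ), ‖eisSummand k x z‖ := by
  simp_rw [eis]
  apply le_trans (norm_tsum_le_tsum_norm ((summable_norm_eisSummand hk z).subtype _))
    (Summable.tsum_subtype_le (fun (x : Fin 2 → ℤ) ↦ ‖(eisSummand k x z)‖) _ (fun _ ↦ norm_nonneg _)
      (summable_norm_eisSummand hk z))

theorem isBoundedAtImInfty_eis_slash [NeZero N] (P : Set (Fin 2 → ZMod N)) {k : ℤ}
    (hk : 3 ≤ k) (A : SL(2, ℤ)) : IsBoundedAtImInfty (eis N P k ∣[k] A) := by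
  rw [eis_slash]
  simp_rw [UpperHalfPlane.isBoundedAtImInfty_iff] at *
  refine ⟨∑'(x : Fin 2 → ℤ), r ⟨⟨N, 2⟩, Nat.ofNat_pos⟩ ^ (-k) * ‖x‖ ^ (-k), 2, ?_⟩
  intro z hz
  obtain ⟨n, hn⟩ := (ModularGroup_T_zpow_mem_verticalStrip z (NeZero.pos N))
  rw [← eisSIF_apply, ← SlashInvariantForm.T_zpow_width_invariant N k n (eisSIF N (act N A P) k) z]
  apply le_trans (norm_eis_le_tsum_norm N (act N A P) k hk _)
  have hk' : (2 : ℝ) < k := by norm_cast
  apply (summable_norm_eisSummand hk _).tsum_le_tsum _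
  · exact_mod_cast (summable_one_div_norm_rpow hk').mul_left <| r ⟨⟨N, 2⟩, Nat.ofNat_pos⟩ ^ (-k)
  · intro x
    simp_rw [eisSummand, norm_zpow]
    exact_mod_cast
      summand_bound_of_mem_verticalStrip (lt_trans two_pos hk').le x two_pos
      (verticalStrip_anti_right N hz hn)

end Fermat.Agent.S48.Eis3
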