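import Mathlib
import Fermat.Agent.S48.Eis3.Defs

/-!
# S48 (Deligne–Serre), brick C: the weight-3 Eisenstein series `H_a` on `Γ₁(N)`

`H_a(τ) = ∑_{(m,n) ∈ ℤ², m ≡ a (N)} (mτ + n)⁻³` (`a ∈ ℤ/N`) is a modular form of weight 3 on
`Γ₁(N)`, and `H_a ∣[3] γ = H_{a γ₀₀}` for `γ ∈ Γ₀(N)`.  Hence for a Dirichlet character `ψ` mod `N`
the sum `∑_{a unit} ψ(a) H_a` transforms under `Γ₀(N)` by `ψ(γ₁₁)`.
-/

set_option autoImplicit false

noncomputable section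

namespace Fermat.Agent.S48.Eis3

open ModularForm UpperHalfPlane Matrix CongruenceSubgroup Set EisensteinSeries Filter
open scoped MatrixGroups Manifold Topology

variable (N : ℕ)

/-- Residue vectors with first coordinate `a`. -/
def rowP (a : ZMod N) : Set (Fin 2 → ZMod N) := {b | b 0 = a}

theorem gamma0_entries {γ : SL(2, ℤ)} (hγ : γ ∈ Gamma0 N) :
    ((γ 0 0 : ℤ) : ZMod N) * ((γ 1 1 : ℤ) : ZMod N) = 1 := by
  rw [Gamma0_mem] at hγ
  have hdet := γ.det_coe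
  rw [Matrix.det_fin_two] at hdet
  have h := congrArg (Int.cast : ℤ → ZMod N) hdet
  push_cast at h
  rw [hγ, mul_zero, sub_zero] at h
  exact h

theorem vecMul_inv_zero (b : Fin 2 → ZMod N) (γ : SL(2, ℤ)) :
    (b ᵥ* (γ⁻¹ : SL(2, ℤ)) : Fin 2 → ZMod N) 0
      = b 0 * ((γ 1 1 : ℤ) : ZMod N) - b 1 * ((γ 1 0 : ℤ) : ZMod N) := by
  rw [Matrix.SpecialLinearGroup.SL2_inv_expl]
  simp [Matrix.vecMul, dotProduct, Fin.sum_univ_two]
  ring

theorem act_rowP {γ : SL(2, ℤ)} (hγ : γ ∈ Gamma0 N) (a : ZMod N) :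
    act N γ (rowP N a) = rowP N (a * ((γ 0 0 : ℤ) : ZMod N)) := by
  have h1 := gamma0_entries N hγ
  have h0 : ((γ 1 0 : ℤ) : ZMod N) = 0 := Gamma0_mem.mp hγ
  ext b
  rw [mem_act_iff]
  show (b ᵥ* (γ⁻¹ : SL(2, ℤ)) : Fin 2 → ZMod N) 0 = a ↔ b 0 = a * ((γ 0 0 : ℤ) : ZMod N)
  rw [vecMul_inv_zero, h0, mul_zero, sub_zero]
  constructor
  · intro h
    rw [← h, mul_assoc, mul_comm ((γ 1 1 : ℤ) : ZMod N), h1, mul_one]
  · intro h
    rw [h, mul_assoc, h1, mul_one]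

/-- `H_a ∣[3] γ = H_{a γ₀₀}` for `γ ∈ Γ₀(N)`. -/
theorem eis_rowP_slash {γ : SL(2, ℤ)} (hγ : γ ∈ Gamma0 N) (a : ZMod N) (k : ℤ) :
    eis N (rowP N a) k ∣[k] γ = eis N (rowP N (a * ((γ 0 0 : ℤ) : ZMod N))) k := by
  rw [eis_slash, act_rowP N hγ]

/-- The weight-3 Eisenstein series `H_a` as a modular form on `Γ₁(N)`. -/
def HMF [NeZero N] (a : ZMod N) : ModularForm (Gamma1 N) 3 where
  toFun := eis N (rowP N a) 3
  slash_action_eq' A hA := by
    obtain ⟨A, hA, rfl⟩ := hA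
    have h00 : ((A 0 0 : ℤ) : ZMod N) = 1 := ((Gamma1_mem N A).mp hA).1
    have h : eis N (rowP N a) 3 ∣[(3 : ℤ)] A = eis N (rowP N a) 3 := by
      rw [eis_rowP_slash N (Gamma1_in_Gamma0 N hA), h00, mul_one]
    simpa [Matrix.SpecialLinearGroup.mapGL, ← SL_slash] using h
  holo' := eis_mdifferentiable N (by norm_num) _
  bdd_at_cusps' {c} hc := by
    rw [Subgroup.IsArithmetic.isCusp_iff_isCusp_SL2Z] at hc
    rw [OnePoint.isBoundedAt_iff_forall_SL2Z hc]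
    exact fun γ _ ↦ isBoundedAtImInfty_eis_slash N _ (by norm_num) γ

theorem HMF_apply [NeZero N] (a : ZMod N) (z : ℍ) : HMF N a z = eis N (rowP N a) 3 z := rfl

theorem coe_HMF [NeZero N] (a : ZMod N) : ⇑(HMF N a) = eis N (rowP N a) 3 := rfl

/-- The character sum `∑_{a unit} ψ(a) H_a`. -/
def twistSum [NeZero N] (ψ : DirichletCharacter ℂ N) : ModularForm (Gamma1 N) 3 :=
  ∑ a : (ZMod N)ˣ, ψ (a : ZMod N) • HMF N (a : ZMod N)

theorem twistSum_apply [NeZero N] (ψ : DirichletCharacter ℂ N) (z : ℍ) :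
    twistSum N ψ z = ∑ a : (ZMod N)ˣ, ψ (a : ZMod N) * eis N (rowP N (a : ZMod N)) 3 z := by
  have h : ∀ (s : Finset (ZMod N)ˣ),
      (∑ a ∈ s, ψ (a : ZMod N) • HMF N (a : ZMod N) : ModularForm (Gamma1 N) 3) z
        = ∑ a ∈ s, ψ (a : ZMod N) * eis N (rowP N (a : ZMod N)) 3 z := by
    intro s
    classical
    induction s using Finset.induction_on with
    | empty => simp
    | insert a s ha ih =>
      rw [Finset.sum_insert ha, Finset.sum_insert ha, _root_.add_apply, ih]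
      rfl
  exact h Finset.univ

/-- **The character sum transforms under `Γ₀(N)` by `ψ(γ₁₁)`.** -/
theorem twistSum_slash [NeZero N] (ψ : DirichletCharacter ℂ N) {γ : SL(2, ℤ)}
    (hγ : γ ∈ Gamma0 N) :
    (⇑(twistSum N ψ)) ∣[(3 : ℤ)] γ = ψ ((γ 1 1 : ℤ) : ZMod N) • ⇑(twistSum N ψ) := by
  have h1 := gamma0_entries N hγ
  have h1' : ((γ 1 1 : ℤ) : ZMod N) * ((γ 0 0 : ℤ) : ZMod N) = 1 := by rw [mul_comm]; exact h1
  set v : (ZMod N)ˣ := ⟨((γ 1 1 : ℤ) : ZMod N), ((γ 0 0 : ℤ) : ZMod N), h1', h1⟩ with hv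
  ext z
  rw [SL_slash_apply, twistSum_apply, Pi.smul_apply, twistSum_apply, smul_eq_mul, Finset.sum_mul,
    Finset.mul_sum]
  have key : ∀ a : ZMod N, eis N (rowP N a) 3 (γ • z) * denom γ z ^ (-(3 : ℤ))
      = eis N (rowP N (a * ((γ 0 0 : ℤ) : ZMod N))) 3 z := by
    intro a
    have := congrFun (eis_rowP_slash N hγ a 3) z
    rwa [SL_slash_apply] at this
  symm
  refine Fintype.sum_equiv (Equiv.mulRight v) _ _ fun b => ?_
  have e1 : (((Equiv.mulRight v) b : (ZMod N)ˣ) : ZMod N)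
      = (b : ZMod N) * ((γ 1 1 : ℤ) : ZMod N) := by
    simp [hv]
  rw [mul_assoc (ψ _), key, e1, map_mul, mul_assoc (b : ZMod N), h1', mul_one]
  ring

end Fermat.Agent.S48.Eis3
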