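import Mathlib
import Fermat.Agent.S48.Eis3.Row
import Fermat.Agent.S48.CharEis.QExp

/-!
# S48 (Deligne–Serre), brick C: the weight-3 Eisenstein multiplier with nebentypus

For an odd Dirichlet character `ψ` mod `N` there is a modular form `Q` of weight `3` on `Γ₁(N)`
with

* `Q ∣[3] γ = ψ(γ₁₁) • Q` for `γ ∈ Γ₀(N)`;
* `q`-expansion `∑_{n ≥ 1} (∑_{m ∣ n} ψ(m) (n/m)²) qⁿ = q + …` (coefficients in `ℤ[ψ]`).

`Q = constW 3⁻¹ • ∑_{a unit} ψ(a) H_a`, `H_a = ∑_{(m,n), m ≡ a} (m z + n)⁻³` (`Eis3/Row.lean`),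
`q`-expansion by `CharEis/QExp.lean` (helper135).
-/

set_option autoImplicit false

noncomputable section

namespace Fermat.Agent.S48.Eis3

open ModularForm UpperHalfPlane Matrix CongruenceSubgroup Set EisensteinSeries Filter
open scoped MatrixGroups Manifold Topology

variable (N : ℕ)

theorem one_mem_strictPeriods_gamma1 :
    (1 : ℝ) ∈ (Subgroup.map (Matrix.SpecialLinearGroup.mapGL ℝ)
      (CongruenceSubgroup.Gamma1 N)).strictPeriods := by
  have hT : ModularGroup.T ∈ CongruenceSubgroup.Gamma1 N := by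
    rw [CongruenceSubgroup.Gamma1_mem]
    simp [ModularGroup.T]
  rw [Subgroup.strictPeriods_eq_zmultiples_one_of_T_mem hT]
  exact AddSubgroup.mem_zmultiples (1 : ℝ)

/-- A sum over the units of `ZMod N` against the indicator of one residue. -/
theorem sum_units_ite (ψ : DirichletCharacter ℂ N) [NeZero N] (x : ZMod N) (e : ℂ) :
    ∑ a : (ZMod N)ˣ, (if x = (a : ZMod N) then ψ (a : ZMod N) * e else 0) = ψ x * e := by
  classical
  by_cases hx : IsUnit x
  · obtain ⟨u, rfl⟩ := hx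
    have : ∀ a : (ZMod N)ˣ, (if (u : ZMod N) = (a : ZMod N) then ψ (a : ZMod N) * e else 0)
        = if u = a then ψ (a : ZMod N) * e else 0 := by
      intro a
      by_cases h : u = a
      · rw [if_pos h, if_pos (by rw [h])]
      · rw [if_neg h, if_neg (fun h' => h (Units.ext h'))]
    rw [Finset.sum_congr rfl fun a _ => this a, Finset.sum_ite_eq Finset.univ u]
    simp
  · rw [ψ.map_nonunit hx, zero_mul]
    refine Finset.sum_eq_zero fun a _ => ?_
    rw [if_neg]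
    rintro rfl
    exact hx a.isUnit

/-- The Eisenstein sum over a row set as a sum over all of `ℤ²`. -/
theorem eis_rowP_eq_tsum (a : ZMod N) (k : ℤ) (z : ℍ) :
    eis N (rowP N a) k z
      = ∑' v : Fin 2 → ℤ, (if ((v 0 : ℤ) : ZMod N) = a then eisSummand k v z else 0) := by
  classical
  rw [eis, tsum_subtype (congSet N (rowP N a)) (fun v => eisSummand k v z)]
  refine tsum_congr fun v => ?_
  rw [Set.indicator_apply]
  exact if_congr Iff.rfl rfl rfl

/-- **The character sum as a weighted lattice sum.** -/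
theorem twistSum_eq_tsum [NeZero N] (ψ : DirichletCharacter ℂ N) (z : ℍ) :
    twistSum N ψ z
      = ∑' p : ℤ × ℤ, ψ (p.1 : ZMod N) * (((p.1 : ℂ) * z + p.2) ^ 3)⁻¹ := by
  classical
  have hsum : ∀ a : (ZMod N)ˣ, Summable fun v : Fin 2 → ℤ =>
      (if ((v 0 : ℤ) : ZMod N) = (a : ZMod N) then ψ (a : ZMod N) * eisSummand 3 v z else 0) := by
    intro a
    have h0 : Summable fun v : Fin 2 → ℤ => ψ (a : ZMod N) * eisSummand 3 v z :=
      ((summable_norm_eisSummand (k := 3) (by norm_num) z).of_norm).mul_left _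
    have h1 := h0.indicator {v : Fin 2 → ℤ | ((v 0 : ℤ) : ZMod N) = (a : ZMod N)}
    refine h1.congr fun v => ?_
    rw [Set.indicator_apply]
    exact if_congr Iff.rfl rfl rfl
  have h2 := CharEis.tsum_fin_two (N := N) 3 (fun a => ψ a) z
  have h3 : ∑' p : ℤ × ℤ, CharEis.wterm 3 (fun a => ψ a) z p
      = ∑' p : ℤ × ℤ, ψ (p.1 : ZMod N) * (((p.1 : ℂ) * z + p.2) ^ 3)⁻¹ := rfl
  rw [twistSum_apply, ← h3, ← h2]
  have h4 : ∀ a : (ZMod N)ˣ, ψ (a : ZMod N) * eis N (rowP N (a : ZMod N)) 3 z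
      = ∑' v : Fin 2 → ℤ,
        (if ((v 0 : ℤ) : ZMod N) = (a : ZMod N) then ψ (a : ZMod N) * eisSummand 3 v z else 0) := by
    intro a
    rw [eis_rowP_eq_tsum, ← tsum_mul_left]
    refine tsum_congr fun v => ?_
    rw [mul_ite, mul_zero]
  rw [Finset.sum_congr rfl fun a _ => h4 a, ← Summable.tsum_finsetSum fun a _ => hsum a]
  refine tsum_congr fun v => ?_
  have := sum_units_ite N ψ ((v 0 : ℤ) : ZMod N) (eisSummand ((3 : ℕ) : ℤ) v z)
  exact_mod_cast this

/-- **The weight-3 Eisenstein multiplier with nebentypus `ψ`.** -/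
theorem exists_twist [NeZero N] (ψ : DirichletCharacter ℂ N) (hψ : ψ (-1) = -1) :
    ∃ Q : ModularForm (Gamma1 N) 3,
      (∀ γ : SL(2, ℤ), γ ∈ Gamma0 N →
        (⇑Q) ∣[(3 : ℤ)] γ = ψ ((γ 1 1 : ℤ) : ZMod N) • ⇑Q) ∧
      (∀ n : ℕ, (qExpansion 1 Q).coeff n
        = ∑ m ∈ n.divisors, ψ (m : ZMod N) * ((n / m : ℕ) : ℂ) ^ 2) ∧
      (∀ z : ℍ, Q z = (CharEis.constW 3)⁻¹ *
        ∑' p : ℤ × ℤ, ψ (p.1 : ZMod N) * (((p.1 : ℂ) * z + p.2) ^ 3)⁻¹) := by
  have hN : N ≠ 1 := CharEis.ne_one_of_odd ψ hψ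
  have hψ3 : ψ (-1) = (-1) ^ 3 := by rw [hψ]; norm_num
  have hC := CharEis.constW_ne_zero 3
  refine ⟨(CharEis.constW 3)⁻¹ • twistSum N ψ, ?_, ?_, ?_⟩
  · intro γ hγ
    have h := twistSum_slash N ψ hγ
    have e : (⇑((CharEis.constW 3)⁻¹ • twistSum N ψ) : ℍ → ℂ)
        = (CharEis.constW 3)⁻¹ • ⇑(twistSum N ψ) := rfl
    rw [e, SL_smul_slash, h, smul_comm]
  · intro n
    have hcoef := CharEis.qExpansion_coeff_char (N := N) (k := 3) (by norm_num) ψ hN hψ3
      (one_mem_strictPeriods_gamma1 N) (twistSum N ψ) (twistSum_eq_tsum N ψ) n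
    have hsm : qExpansion 1 (⇑((CharEis.constW 3)⁻¹ • twistSum N ψ))
        = (CharEis.constW 3)⁻¹ • qExpansion 1 (⇑(twistSum N ψ)) :=
      ModularForm.qExpansion_smul (k := 3) one_pos (one_mem_strictPeriods_gamma1 N)
        (CharEis.constW 3)⁻¹ (twistSum N ψ)
    rw [hsm, PowerSeries.coeff_smul, hcoef, smul_eq_mul, ← mul_assoc, inv_mul_cancel₀ hC, one_mul]
    rfl
  · intro z
    have e : ((CharEis.constW 3)⁻¹ • twistSum N ψ) z = (CharEis.constW 3)⁻¹ * twistSum N ψ z := rfl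
    rw [e, twistSum_eq_tsum]

end Fermat.Agent.S48.Eis3
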