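import Mathlib
import Fermat.Agent.S48.Eis3.Twist
import Fermat.Agent.S48.ConjEis
import Fermat.Agent.S48.Neben

/-!
# S48 (Deligne–Serre), brick C closed by the twist route at level `N`

`hAux`: the auxiliary form of `ConjEis.HAux N ε` exists (weight `3`, level `N`): it is the
Eisenstein multiplier `Eis3.exists_twist N ε⁻¹`, whose conjugates are the multipliers of the
conjugate characters.  Together with brick A (`Neben.slash_eq_smul`) this removes every
hypothesis from the exits of `ConjEis.lean` beyond the frozen ones.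
-/

set_option autoImplicit false

noncomputable section

namespace Fermat.Agent.S48.Eis3

open ModularForm UpperHalfPlane CongruenceSubgroup
open scoped MatrixGroups Manifold

variable (N : ℕ)

/-- The inverse of an odd character is odd. -/
theorem inv_odd (ε : DirichletCharacter ℂ N) (hε : ε (-1) = -1) : ε⁻¹ (-1) = -1 := by
  rw [MulChar.inv_apply_eq_inv', hε]
  norm_num

/-- Conjugates of odd characters are odd. -/
theorem ringHomComp_odd (ψ : DirichletCharacter ℂ N) (hψ : ψ (-1) = -1) (σ : ℂ →+* ℂ) :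
    (ψ.ringHomComp σ) (-1) = -1 := by
  rw [MulChar.ringHomComp_apply, hψ, map_neg, map_one]

/-- The values of `ε⁻¹` are values of `ε`. -/
theorem inv_mem_range (ε : DirichletCharacter ℂ N) (a : ZMod N) : ε⁻¹ a ∈ Set.range ε := by
  rw [MulChar.inv_apply]
  exact ⟨_, rfl⟩

variable [NeZero N]

/-- **The auxiliary form**, at level `N` and weight `3`: `E = q + ⋯` with nebentypus `ε⁻¹`,
coefficients in `ℤ[ε]`, and all conjugates modular on `Γ₁(N)`. -/
theorem exists_aux (ε : DirichletCharacter ℂ N) (hε : ε (-1) = -1) :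
    ∃ E : ModularForm (Gamma1 N) 3,
      ConjEis.HasNeben ε⁻¹ N 3 E ∧ ModularFormClass.qCoeff E 0 = 0 ∧
      ModularFormClass.qCoeff E 1 = 1 ∧
      (∀ n : ℕ, ModularFormClass.qCoeff E n ∈ Algebra.adjoin ℤ (Set.range ε)) ∧
      ∀ σ : ℂ →+* ℂ, ∃ E' : ModularForm (Gamma1 N) 3,
        ∀ n : ℕ, ModularFormClass.qCoeff E' n = σ (ModularFormClass.qCoeff E n) := by
  obtain ⟨E, hE1, hE2, -⟩ := exists_twist N ε⁻¹ (inv_odd N ε hε)
  refine ⟨E, hE1, ?_, ?_, ?_, ?_⟩
  · unfold ModularFormClass.qCoeff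
    rw [hE2, Nat.divisors_zero, Finset.sum_empty]
  · unfold ModularFormClass.qCoeff
    rw [hE2, Nat.divisors_one, Finset.sum_singleton]
    simp
  · intro n
    unfold ModularFormClass.qCoeff
    rw [hE2]
    refine Subalgebra.sum_mem _ fun m _ => ?_
    refine Subalgebra.mul_mem _ (Algebra.subset_adjoin (inv_mem_range N ε _)) ?_
    exact Subalgebra.pow_mem _ (Subalgebra.natCast_mem _ _) _
  · intro σ
    obtain ⟨E', -, hE2', -⟩ := exists_twist N (ε⁻¹.ringHomComp σ)
      (ringHomComp_odd N ε⁻¹ (inv_odd N ε hε) σ)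
    refine ⟨E', fun n => ?_⟩
    unfold ModularFormClass.qCoeff
    rw [hE2', hE2, map_sum]
    refine Finset.sum_congr rfl fun m _ => ?_
    rw [MulChar.ringHomComp_apply, map_mul, map_pow, map_natCast σ]

/-- **`ConjEis.HAux N ε` holds** for odd `ε` (with `M = N`, `w = 3`). -/
theorem hAux (ε : DirichletCharacter ℂ N) (hε : ε (-1) = -1) : ConjEis.HAux N ε :=
  ⟨N, 3, dvd_rfl, NeZero.ne N, exists_aux N ε hε⟩

/-- Brick A in the shape consumed by `ConjEis`. -/
theorem hasNeben_of_hT (ε : DirichletCharacter ℂ N) (f : CuspForm (Gamma1 N) 1)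
    (hT : ∀ p : ℕ, p.Prime → ¬ p ∣ N → ∀ n : ℕ,
        ModularFormClass.qCoeff f (p * n) +
            ε (p : ZMod N) * (if p ∣ n then ModularFormClass.qCoeff f (n / p) else 0) =
          ModularFormClass.qCoeff f p * ModularFormClass.qCoeff f n) :
    ConjEis.HasNeben ε N 1 f := by
  intro γ hγ
  rw [ModularForm.SL_slash]
  exact Neben.slash_eq_smul N ε f hT γ hγ

omit [NeZero N] in
/-- A nonzero weight-one form with nebentypus `ε` forces `ε` to be odd. -/
theorem odd_of_hasNeben (ε : DirichletCharacter ℂ N) (f : CuspForm (Gamma1 N) 1)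
    (hf₁ : ModularFormClass.qCoeff f 1 = 1) (hA : ConjEis.HasNeben ε N 1 f) :
    ε (-1) = -1 := by
  have hmem : (-1 : SL(2, ℤ)) ∈ Gamma0 N := by
    rw [Gamma0_mem]
    simp
  have h1 := hA (-1) hmem
  have h2 : (⇑f : ℍ → ℂ) ∣[(1 : ℤ)] (-1 : SL(2, ℤ)) = -⇑f := by
    ext z
    rw [ModularForm.SL_slash_apply]
    simp [UpperHalfPlane.denom]
  rw [h2] at h1
  have h3 : ((-1 : SL(2, ℤ)) 1 1 : ℤ) = -1 := by simp
  rw [h3] at h1
  have h4 : ((-1 : ℤ) : ZMod N) = -1 := by push_cast; rfl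
  rw [h4] at h1
  by_contra hne
  have hzero : (⇑f : ℍ → ℂ) = 0 := by
    ext z
    have := congrFun h1 z
    simp only [Pi.neg_apply, Pi.smul_apply, smul_eq_mul] at this
    have h5 : (ε (-1) + 1) * f z = 0 := by rw [add_mul, one_mul, ← this]; ring
    rcases mul_eq_zero.mp h5 with h | h
    · exact absurd (eq_neg_of_add_eq_zero_left h) hne
    · simpa using h
  unfold ModularFormClass.qCoeff at hf₁
  rw [hzero, qExpansion_zero] at hf₁
  simp at hf₁

section exits

variable (ε : DirichletCharacter ℂ N) (f : CuspForm (Gamma1 N) 1)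
  (hf₁ : ModularFormClass.qCoeff f 1 = 1)
  (hT : ∀ p : ℕ, p.Prime → ¬ p ∣ N → ∀ n : ℕ,
      ModularFormClass.qCoeff f (p * n) +
          ε (p : ZMod N) * (if p ∣ n then ModularFormClass.qCoeff f (n / p) else 0) =
        ModularFormClass.qCoeff f p * ModularFormClass.qCoeff f n)

include hf₁ hT

/-- Under the frozen hypotheses of S48 the character is odd. -/
theorem odd_of_hT : ε (-1) = -1 :=
  odd_of_hasNeben N ε f hf₁ (hasNeben_of_hT N ε f hT)

/-- Under the frozen hypotheses of S48 the auxiliary form exists. -/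
theorem hAux_of_hT : ConjEis.HAux N ε :=
  hAux N ε (odd_of_hT N ε f hf₁ hT)

/-- **Exit (i): the integrality lattice**, under the frozen hypotheses only. -/
theorem exists_lattice_frozen :
    ∃ Λ : Submodule ℤ ℂ, Λ.FG ∧ (1 : ℂ) ∈ Λ ∧
      (∀ p : ℕ, p.Prime → ¬ p ∣ N → ∀ x ∈ Λ, ModularFormClass.qCoeff f p * x ∈ Λ) ∧
      (∀ d : ZMod N, ∀ x ∈ Λ, ε d * x ∈ Λ) :=
  ConjEis.exists_lattice N ε f hf₁ hT (hasNeben_of_hT N ε f hT) (hAux_of_hT N ε f hf₁ hT)

/-- The eigenvalues `a_p` (`p ∤ N`) are algebraic integers, under the frozen hypotheses only. -/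
theorem isIntegral_qCoeff_frozen (p : ℕ) (hp : p.Prime) (hpN : ¬ p ∣ N) :
    IsIntegral ℤ (ModularFormClass.qCoeff f p) :=
  ConjEis.isIntegral_qCoeff N ε f hf₁ hT (hasNeben_of_hT N ε f hT) (hAux_of_hT N ε f hf₁ hT)
    p hp hpN

/-- The ring generated by the `a_p` (`p ∤ N`) and the values of `ε` is a finitely generated
`ℤ`-module, under the frozen hypotheses only. -/
theorem adjoin_fg_frozen :
    (Subalgebra.toSubmodule (Algebra.adjoin ℤ
      ({x : ℂ | ∃ p : ℕ, p.Prime ∧ ¬ p ∣ N ∧ x = ModularFormClass.qCoeff f p} ∪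
        Set.range ε))).FG :=
  ConjEis.adjoin_fg N ε f hf₁ hT (hasNeben_of_hT N ε f hT) (hAux_of_hT N ε f hf₁ hT)

/-- **Exit (ii): conjugates at the same level `N`**, with the conjugate Hecke relations, under
the frozen hypotheses only. -/
theorem exists_conj_rel_frozen (σ : ℂ →+* ℂ) :
    ∃ h : CuspForm (Gamma1 N) 1,
      (∀ n : ℕ, ModularFormClass.qCoeff h n = σ (ModularFormClass.qCoeff f n)) ∧
      ModularFormClass.qCoeff h 1 = 1 ∧
      ∀ p : ℕ, p.Prime → ¬ p ∣ N → ∀ n : ℕ,
        ModularFormClass.qCoeff h (p * n) +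
            σ (ε (p : ZMod N)) * (if p ∣ n then ModularFormClass.qCoeff h (n / p) else 0) =
          σ (ModularFormClass.qCoeff f p) * ModularFormClass.qCoeff h n := by
  have hA := hasNeben_of_hT N ε f hT
  obtain ⟨E, hE, -, hE1, -, hconj⟩ := exists_aux N ε (odd_of_hT N ε f hf₁ hT)
  obtain ⟨E', hE'⟩ := hconj σ
  have hEne : qExpansion 1 E ≠ 0 := by
    intro h0
    have h1 : ModularFormClass.qCoeff E 1 = 0 := by
      unfold ModularFormClass.qCoeff
      rw [h0]
      simp
    rw [hE1] at h1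
    exact one_ne_zero h1
  have hE'' : qExpansion 1 E' = PowerSeries.map σ (qExpansion 1 E) := by
    ext n
    rw [PowerSeries.coeff_map]
    exact hE' n
  obtain ⟨h, hh⟩ := ConjEis.exists_conj_of_aux (dvd_refl N) ε f hA E hE hEne σ E' hE''
  have hh' : ∀ n : ℕ, ModularFormClass.qCoeff h n = σ (ModularFormClass.qCoeff f n) := by
    intro n
    unfold ModularFormClass.qCoeff
    rw [hh, PowerSeries.coeff_map]
  refine ⟨h, hh', by rw [hh', hf₁, map_one], fun p hp hpN n => ?_⟩
  have h1 := congrArg σ (hT p hp hpN n)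
  rw [map_add, map_mul, map_mul] at h1
  simp only [hh']
  rw [← h1]
  congr 2
  split_ifs
  · rfl
  · rw [map_zero]

end exits

end Fermat.Agent.S48.Eis3
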