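import Mathlib
import Fermat.Agent.S48.Eis3.HAux

/-!
# S48 (Deligne–Serre), brick C: all `q`-coefficients of `f` lie in a finitely generated lattice

Under the frozen hypotheses of S48, every `q`-coefficient `a_n(f)` (not only the eigenvalues
`a_p`, `p ∤ N`) lies in a finitely generated `ℤ`-submodule of `ℂ`, stable under `ℤ[ε]`.
`exists_finset_span` is the input `haT` of `Denom.step2`.
-/

set_option autoImplicit false

noncomputable section

namespace Fermat.Agent.S48.Eis3

open ModularForm UpperHalfPlane CongruenceSubgroup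
open scoped MatrixGroups Manifold

variable (N : ℕ) [NeZero N] (ε : DirichletCharacter ℂ N) (f : CuspForm (Gamma1 N) 1)
  (hf₁ : ModularFormClass.qCoeff f 1 = 1)
  (hT : ∀ p : ℕ, p.Prime → ¬ p ∣ N → ∀ n : ℕ,
      ModularFormClass.qCoeff f (p * n) +
          ε (p : ZMod N) * (if p ∣ n then ModularFormClass.qCoeff f (n / p) else 0) =
        ModularFormClass.qCoeff f p * ModularFormClass.qCoeff f n)

include hf₁ hT

/-- **All coefficients of `f` lie in a finitely generated `ℤ[ε]`-stable lattice**, under the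
frozen hypotheses only. -/
theorem exists_lattice_coeff_frozen :
    ∃ Λ : Submodule ℤ ℂ, Λ.FG ∧
      (∀ r ∈ Algebra.adjoin ℤ (Set.range ε), ∀ x ∈ Λ, r * x ∈ Λ) ∧
      ∀ n : ℕ, ModularFormClass.qCoeff f n ∈ Λ := by
  have hA := hasNeben_of_hT N ε f hT
  obtain ⟨E, hE, hE0, hE1, hER, -⟩ := exists_aux N ε (odd_of_hT N ε f hf₁ hT)
  exact ConjEis.exists_lattice_of_aux (dvd_refl N) ε f hA E hE hE0 hE1 hER

/-- **All coefficients of `f` lie in the `ℤ`-span of a finite set** (the input of
`Denom.step2`), under the frozen hypotheses only. -/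
theorem exists_finset_span :
    ∃ T0 : Finset ℂ, ∀ n : ℕ, ModularFormClass.qCoeff f n ∈ Submodule.span ℤ (T0 : Set ℂ) := by
  obtain ⟨Λ, ⟨T0, hT0⟩, -, hmem⟩ := exists_lattice_coeff_frozen N ε f hf₁ hT
  exact ⟨T0, fun n => by rw [hT0]; exact hmem n⟩

omit [NeZero N] hf₁ hT in
/-- The constant coefficient of a weight-one cusp form on `Γ₁(N)` vanishes (`a 0 = 0`, the
hypothesis `ha0` of `Denom.step2`). -/
theorem qCoeff_zero_of_cusp (g : CuspForm (Gamma1 N) 1) : ModularFormClass.qCoeff g 0 = 0 :=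
  CuspFormClass.qExpansion_coeff_zero (k := 1) g one_pos (one_mem_strictPeriods_gamma1 N)

end Fermat.Agent.S48.Eis3
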